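import Mathlib

/-!
# Extending embeddings of number fields to automorphisms of `ℂ`

* `exists_ringEquiv_extending_algEquiv` : every automorphism of `ℚ̄ = algebraicClosure ℚ ℂ` extends
  to a ring automorphism of `ℂ`;
* `exists_ringEquiv_extending` : every `ℚ`-embedding `τ : K → ℂ` of a subfield `K ⊆ ℂ` algebraic over
  `ℚ` extends to a ring automorphism of `ℂ`.
-/

set_option autoImplicit false
set_option linter.style.haveILetI false

namespace Fermat.Agent.S48.H308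

open MvPolynomial

/-- Every automorphism of `ℚ̄ ⊆ ℂ` extends to a ring automorphism of `ℂ`. -/
theorem exists_ringEquiv_extending_algEquiv
    (τ : algebraicClosure ℚ ℂ ≃ₐ[ℚ] algebraicClosure ℚ ℂ) :
    ∃ σ : ℂ ≃+* ℂ, ∀ y : algebraicClosure ℚ ℂ, σ (y : ℂ) = ((τ y : algebraicClosure ℚ ℂ) : ℂ) := by
  obtain ⟨ι, v, hv⟩ := exists_isTranscendenceBasis' (algebraicClosure ℚ ℂ) ℂ
  let _ := IsAlgClosed.isAlgClosure_of_transcendence_basis v hv
  let e : Algebra.adjoin (algebraicClosure ℚ ℂ) (Set.range v) ≃+*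
      Algebra.adjoin (algebraicClosure ℚ ℂ) (Set.range v) :=
    hv.1.aevalEquiv.symm.toRingEquiv.trans
      ((MvPolynomial.mapEquiv ι τ.toRingEquiv).trans hv.1.aevalEquiv.toRingEquiv)
  refine ⟨IsAlgClosure.equivOfEquiv ℂ ℂ e, fun y => ?_⟩
  have hymem : (y : ℂ) ∈ Algebra.adjoin (algebraicClosure ℚ ℂ) (Set.range v) :=
    Subalgebra.algebraMap_mem _ y
  have hτmem : ((τ y : algebraicClosure ℚ ℂ) : ℂ) ∈
      Algebra.adjoin (algebraicClosure ℚ ℂ) (Set.range v) :=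
    Subalgebra.algebraMap_mem _ (τ y)
  have h3 : hv.1.aevalEquiv.symm ⟨(y : ℂ), hymem⟩ = C y := by
    apply hv.1.aevalEquiv.injective
    rw [AlgEquiv.apply_symm_apply]
    ext
    simp
  have h2 : e ⟨(y : ℂ), hymem⟩ = ⟨((τ y : algebraicClosure ℚ ℂ) : ℂ), hτmem⟩ := by
    have : e ⟨(y : ℂ), hymem⟩ = hv.1.aevalEquiv
        ((MvPolynomial.mapEquiv ι τ.toRingEquiv) (hv.1.aevalEquiv.symm ⟨(y : ℂ), hymem⟩)) := rfl
    rw [this, h3]
    ext
    simp
  have h1 := IsAlgClosure.equivOfEquiv_algebraMap ℂ ℂ e ⟨(y : ℂ), hymem⟩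
  rw [h2] at h1
  simpa using h1

/-- Every `ℚ`-embedding into `ℂ` of a subfield of `ℂ` which is algebraic over `ℚ` extends to a ring
automorphism of `ℂ`. -/
theorem exists_ringEquiv_extending (K : IntermediateField ℚ ℂ) [Algebra.IsAlgebraic ℚ K]
    (τ : K →ₐ[ℚ] ℂ) : ∃ σ : ℂ ≃+* ℂ, ∀ x : K, σ (x : ℂ) = τ x := by
  have hK : ∀ x : K, (x : ℂ) ∈ algebraicClosure ℚ ℂ := fun x =>
    mem_algebraicClosure_iff.mpr
      (IsAlgebraic.algHom K.val (Algebra.IsAlgebraic.isAlgebraic (R := ℚ) x))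
  have hτK : ∀ x : K, τ x ∈ algebraicClosure ℚ ℂ := fun x =>
    mem_algebraicClosure_iff.mpr
      (IsAlgebraic.algHom τ (Algebra.IsAlgebraic.isAlgebraic (R := ℚ) x))
  haveI hcl : IsAlgClosure ℚ (algebraicClosure ℚ ℂ) := algebraicClosure.isAlgClosure ℚ ℂ
  haveI : IsAlgClosed (algebraicClosure ℚ ℂ) := hcl.isAlgClosed
  haveI : Normal ℚ (algebraicClosure ℚ ℂ) := IsAlgClosure.normal ℚ _
  -- the two embeddings of `K` into `ℚ̄`
  let incl : K →ₐ[ℚ] algebraicClosure ℚ ℂ :=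
    { toFun := fun x => ⟨(x : ℂ), hK x⟩
      map_one' := rfl
      map_mul' := fun _ _ => rfl
      map_zero' := rfl
      map_add' := fun _ _ => rfl
      commutes' := fun _ => rfl }
  let ϕ : K →ₐ[ℚ] algebraicClosure ℚ ℂ :=
    { toFun := fun x => ⟨τ x, hτK x⟩
      map_one' := Subtype.ext (map_one τ)
      map_mul' := fun x y => Subtype.ext (map_mul τ x y)
      map_zero' := Subtype.ext (map_zero τ)
      map_add' := fun x y => Subtype.ext (map_add τ x y)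
      commutes' := fun r => Subtype.ext (τ.commutes r) }
  letI : Algebra K (algebraicClosure ℚ ℂ) := incl.toRingHom.toAlgebra
  haveI : IsScalarTower ℚ K (algebraicClosure ℚ ℂ) :=
    IsScalarTower.of_algebraMap_eq fun r => (incl.commutes r).symm
  let τ₁ : algebraicClosure ℚ ℂ →ₐ[ℚ] algebraicClosure ℚ ℂ := ϕ.liftNormal (algebraicClosure ℚ ℂ)
  have hτ₁ : ∀ x : K, τ₁ (incl x) = ϕ x := fun x => ϕ.liftNormal_commutes (algebraicClosure ℚ ℂ) x
  let τ₂ : algebraicClosure ℚ ℂ ≃ₐ[ℚ] algebraicClosure ℚ ℂ :=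
    AlgEquiv.ofBijective τ₁ (Algebra.IsAlgebraic.algHom_bijective τ₁)
  obtain ⟨σ, hσ⟩ := exists_ringEquiv_extending_algEquiv τ₂
  refine ⟨σ, fun x => ?_⟩
  have h1 := hσ (incl x)
  have h2 : τ₂ (incl x) = ϕ x := hτ₁ x
  rw [h2] at h1
  exact h1

end Fermat.Agent.S48.H308
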