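import Fermat.Agent.S48.Top.Spec
import Fermat.Agent.S48.H308.AutExtend
import Fermat.Agent.S48.H128.Integrality
import Fermat.Agent.S48.H188.Nebentypus

/-!
# S48 (Deligne–Serre), input P1 INT: final assembly of `Top.EigenConjStatement`

`eigenConj_of_conj : ConjStatement → Top.EigenConjStatement`, where `ConjStatement` is the Galois
stability of weight one eigenforms on the level of functions: for every ring endomorphism `σ` of
`ℂ` the series `∑ σ(a_n) qⁿ` is again the `q`-expansion of a cusp form of weight one on `Γ₁(N)`.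

Ingredients (all on main): P0 = nebentypus (`H188.nebentypus`), P1 = finiteness of the ring
generated by the eigenvalues (`H128.exists_finite_subring`), and the extension of embeddings of
number fields to automorphisms of `ℂ` (`exists_ringEquiv_extending`).
-/

set_option autoImplicit false
set_option linter.style.haveILetI false

open CongruenceSubgroup
open scoped MatrixGroups

namespace Fermat.Agent.S48.H308

open Fermat.Agent.S48.Top

/-- **Galois stability of weight one eigenforms** (function level): the only missing input of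
`Top.EigenConjStatement`. -/
def ConjStatement : Prop :=
  ∀ (N : ℕ) [NeZero N] (ε : DirichletCharacter ℂ N) (f : CuspForm (Gamma1 N) 1),
    IsEigen N ε f → ∀ σ : ℂ →+* ℂ, ∃ g : CuspForm (Gamma1 N) 1,
      ∀ n : ℕ, ModularFormClass.qCoeff g n = σ (ModularFormClass.qCoeff f n)

/-- A form whose coefficients are the `σ`-conjugates of those of an eigenform is an eigenform for
the conjugate character. -/
theorem isEigen_of_conj {N : ℕ} [NeZero N] {ε : DirichletCharacter ℂ N}
    {f g : CuspForm (Gamma1 N) 1} (hf : IsEigen N ε f) (σ : ℂ →+* ℂ)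
    (hg : ∀ n : ℕ, ModularFormClass.qCoeff g n = σ (ModularFormClass.qCoeff f n)) :
    IsEigen N (ε.ringHomComp σ) g := by
  refine ⟨by rw [hg, hf.1, map_one], fun p hp hpN n => ?_⟩
  have h := congrArg σ (hf.2 p hp hpN n)
  rw [map_add, map_mul, map_mul, apply_ite σ, map_zero] at h
  simp only [hg, MulChar.ringHomComp_apply]
  exact h

/-- **P1 (INT)** from Galois stability. -/
theorem eigenConj_of_conj (hconj : ConjStatement) : EigenConjStatement := by
  intro N _ ε f hf
  classical
  have hneb : Fermat.Agent.S48.H128.HasNebentypus ε f :=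
    fun γ hγ => Fermat.Agent.S48.H188.nebentypus ε f hf.2 hγ
  obtain ⟨R, hRfin, -, hRa⟩ := Fermat.Agent.S48.H128.exists_finite_subring ε f hf.1 hf.2 hneb
  haveI := hRfin
  obtain ⟨s, hs⟩ := (Module.Finite.fg_top : (⊤ : Submodule ℤ R).FG)
  set S : Set ℂ := (fun r : R => (r : ℂ)) '' (s : Set R) with hS
  have hSfin : S.Finite := (Finset.finite_toSet s).image _
  haveI : Finite S := hSfin.to_subtype
  have hRint : ∀ r : R, IsIntegral ℤ (r : ℂ) := fun r =>
    (IsIntegral.of_finite ℤ r).map (R.subtype.toIntAlgHom)
  set K : IntermediateField ℚ ℂ := IntermediateField.adjoin ℚ S with hK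
  have hKfd : FiniteDimensional ℚ K := by
    apply IntermediateField.finiteDimensional_adjoin
    rintro x ⟨r, -, rfl⟩
    exact (hRint r).tower_top
  have hRK : ∀ r : R, (r : ℂ) ∈ K := by
    intro r
    have hr : r ∈ Submodule.span ℤ (s : Set R) := by rw [hs]; trivial
    induction hr using Submodule.span_induction with
    | mem x hx => exact IntermediateField.subset_adjoin ℚ S ⟨x, hx, rfl⟩
    | zero => exact K.zero_mem
    | add x y _ _ hx hy => exact K.add_mem hx hy
    | smul a x _ hx =>
      have : ((a • x : R) : ℂ) = a • (x : ℂ) := by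
        simp [zsmul_eq_mul]
      rw [this]
      exact zsmul_mem hx a
  refine ⟨K, hKfd, fun p hp hpN => ⟨hRK ⟨_, hRa p hp hpN⟩, hRint ⟨_, hRa p hp hpN⟩⟩, fun τ => ?_⟩
  haveI : FiniteDimensional ℚ K := hKfd
  obtain ⟨σ, hσ⟩ := exists_ringEquiv_extending K τ
  obtain ⟨g, hg⟩ := hconj N ε f hf σ.toRingHom
  refine ⟨ε.ringHomComp σ.toRingHom, g, isEigen_of_conj hf σ.toRingHom hg, fun p _ _ x hx => ?_⟩
  rw [hg, ← hx]
  exact hσ x

end Fermat.Agent.S48.H308
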