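import Mathlib
import Fermat.Prelude.Def_GaloisRep_Residual
import Fermat.Prelude.Def_Deformations_MatrixRepresentation

/-!
# S48 (Deligne–Serre), glue piece IRR: the algebraic lemmas

* `isIrreducible_of_no_stable_line` : a two-dimensional matrix representation without stable line
  is irreducible (`Representation.IsIrreducible`);
* `two_mul_card_le_sum_norm_sq_trace` : for a finite subgroup `H ≤ GL₂(ℂ)` with a stable line,
  `2 |H| ≤ ∑_{h ∈ H} ‖tr h‖²` (the trace is a sum of two characters);
* `finite_range_of_factorsThroughFiniteLevel` : `GaloisFactorsThroughFiniteLevel ρ` implies that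
  `ρ` has finite range.
-/

set_option autoImplicit false

open Matrix

namespace Fermat.Agent.S48.H308

/-! ### No stable line implies irreducible -/

/-- A two-dimensional matrix representation without stable line is irreducible. -/
theorem isIrreducible_of_no_stable_line {G : Type} [Group G] {k : Type} [Field k]
    (ρ : G →* GL (Fin 2) k)
    (h : ¬ ∃ v : Fin 2 → k, v ≠ 0 ∧
      ∀ g : G, ∃ c : k, ((ρ g : GL (Fin 2) k) : Matrix (Fin 2) (Fin 2) k) *ᵥ v = c • v) :
    (Deformation.matrixRepresentation ρ).IsIrreducible := by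
  have htop : ((⊤ : Subrepresentation (Deformation.matrixRepresentation ρ)).toSubmodule) = ⊤ := rfl
  have hbot : ((⊥ : Subrepresentation (Deformation.matrixRepresentation ρ)).toSubmodule) = ⊥ := rfl
  refine { exists_pair_ne := ⟨⊥, ⊤, ?_⟩, eq_bot_or_eq_top := ?_ }
  · intro hbt
    have h1 : (⊥ : Submodule k (Fin 2 → k)) = ⊤ := by
      rw [← hbot, ← htop, hbt]
    exact bot_ne_top h1
  · intro W
    by_cases hW : W.toSubmodule = ⊥
    · left
      exact Subrepresentation.toSubmodule_injective (hW.trans hbot.symm)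
    · right
      by_contra hne
      have hWtop : W.toSubmodule ≠ ⊤ := fun h' =>
        hne (Subrepresentation.toSubmodule_injective (h'.trans htop.symm))
      obtain ⟨v, hvW, hv0⟩ := Submodule.exists_mem_ne_zero_of_ne_bot hW
      apply h
      refine ⟨v, hv0, fun g => ?_⟩
      have hlt : Module.finrank k W.toSubmodule < 2 := by
        have := Submodule.finrank_lt hWtop
        simpa using this
      have hpos : 0 < Module.finrank k W.toSubmodule := by
        rw [Module.finrank_pos_iff_exists_ne_zero]
        exact ⟨⟨v, hvW⟩, fun h0 => hv0 (congrArg Subtype.val h0)⟩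
      have hone : Module.finrank k W.toSubmodule = 1 := by omega
      have hv' : (⟨v, hvW⟩ : W.toSubmodule) ≠ 0 := fun h0 => hv0 (congrArg Subtype.val h0)
      have hspan := (finrank_eq_one_iff_of_nonzero' (⟨v, hvW⟩ : W.toSubmodule) hv').mp hone
      have hgv : (Deformation.matrixRepresentation ρ g) v ∈ W.toSubmodule :=
        W.apply_mem_toSubmodule g hvW
      obtain ⟨c, hc⟩ := hspan ⟨_, hgv⟩
      refine ⟨c, ?_⟩
      have hc' := congrArg Subtype.val hc
      simp only [Submodule.coe_smul] at hc'
      rw [hc', Deformation.matrixRepresentation_apply]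
      rfl

/-! ### Finite range -/

/-- A homomorphism on `Gal(ℚ̄/ℚ)` which factors through a finite level has finite range. -/
theorem finite_range_of_factorsThroughFiniteLevel {M : Type} [Group M]
    (ρ : (AlgebraicClosure ℚ ≃ₐ[ℚ] AlgebraicClosure ℚ) →* M)
    (h : GaloisFactorsThroughFiniteLevel ρ) : (Set.range ρ).Finite := by
  classical
  obtain ⟨L, hLfd, hL⟩ := h
  have : FiniteDimensional ℚ L := hLfd
  let r : (AlgebraicClosure ℚ ≃ₐ[ℚ] AlgebraicClosure ℚ) → (L →ₐ[ℚ] AlgebraicClosure ℚ) :=
    fun σ => (σ : AlgebraicClosure ℚ →ₐ[ℚ] AlgebraicClosure ℚ).comp L.val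
  have hr : ∀ σ τ, r σ = r τ → ρ σ = ρ τ := by
    intro σ τ hστ
    have h1 : ρ (σ⁻¹ * τ) = 1 := by
      apply hL
      intro x hx
      have h2 : τ x = σ x := by
        have := congrArg (fun φ : L →ₐ[ℚ] AlgebraicClosure ℚ => φ ⟨x, hx⟩) hστ
        exact this.symm
      show σ⁻¹ (τ x) = x
      rw [h2]
      exact σ.symm_apply_apply x
    rw [map_mul, map_inv, inv_mul_eq_one] at h1
    exact h1
  let g : (L →ₐ[ℚ] AlgebraicClosure ℚ) → M := fun x =>
    if hx : ∃ σ, r σ = x then ρ hx.choose else 1
  refine (Set.finite_range g).subset ?_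
  rintro _ ⟨σ, rfl⟩
  refine ⟨r σ, ?_⟩
  have hx : ∃ τ, r τ = r σ := ⟨σ, rfl⟩
  simp only [g, dif_pos hx]
  exact hr _ _ hx.choose_spec

end Fermat.Agent.S48.H308
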