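import Mathlib

/-!
# S48 (Deligne–Serre), glue piece IRR: the character sum

`two_mul_card_le_sum_norm_sq_trace` : for a finite subgroup `H ≤ GL₂(ℂ)` with a stable line,
`2 |H| ≤ ∑_{h ∈ H} ‖tr h‖²`.  (On the line `H` acts through a character `χ₁`, on the quotient
through `χ₂ = det / χ₁`; `tr = χ₁ + χ₂`, `‖χ₁‖ = ‖χ₂‖ = 1`, and `∑_h χ₁ χ₂⁻¹ (h) ∈ {0, |H|}`.)
-/

set_option autoImplicit false

open Matrix

namespace Fermat.Agent.S48.H308

/-- An eigenvalue of a `2 × 2` matrix is a root of `X² - tr X + det`. -/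
lemma eigen_charEq (M : Matrix (Fin 2) (Fin 2) ℂ) (v : Fin 2 → ℂ) (hv : v ≠ 0) (c : ℂ)
    (h : M *ᵥ v = c • v) : c ^ 2 - M.trace * c + M.det = 0 := by
  have h0 := congrFun h 0
  have h1 := congrFun h 1
  simp only [Matrix.mulVec, dotProduct, Fin.sum_univ_two, Pi.smul_apply, smul_eq_mul] at h0 h1
  rw [Matrix.trace_fin_two, Matrix.det_fin_two]
  have hv' : v 0 ≠ 0 ∨ v 1 ≠ 0 := by
    by_contra hcon
    push Not at hcon
    apply hv
    ext i
    fin_cases i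
    · exact hcon.1
    · exact hcon.2
  rcases hv' with hx | hy
  · apply mul_right_cancel₀ hx
    linear_combination (-(M 0 1)) * h1 - (c - M 1 1) * h0
  · apply mul_right_cancel₀ hy
    linear_combination (-(M 1 0)) * h0 - (c - M 0 0) * h1

/-- For a finite subgroup of `GL₂(ℂ)` with a stable line: `2 |H| ≤ ∑ ‖tr h‖²`. -/
theorem two_mul_card_le_sum_norm_sq_trace (H : Subgroup (GL (Fin 2) ℂ)) [Fintype H]
    (v : Fin 2 → ℂ) (hv : v ≠ 0)
    (hstab : ∀ h ∈ H, ∃ c : ℂ, ((h : GL (Fin 2) ℂ) : Matrix (Fin 2) (Fin 2) ℂ) *ᵥ v = c • v) :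
    2 * (Fintype.card H : ℝ) ≤
      ∑ h : H, ‖(((h : GL (Fin 2) ℂ) : Matrix (Fin 2) (Fin 2) ℂ)).trace‖ ^ 2 := by
  classical
  choose! χ hχ using hstab
  have hinj : ∀ a b : ℂ, a • v = b • v → a = b := fun a b hab => smul_left_injective ℂ hv hab
  have hχ1 : χ 1 = 1 := by
    apply hinj
    rw [← hχ 1 H.one_mem]
    simp
  have hχmul : ∀ g h, g ∈ H → h ∈ H → χ (g * h) = χ g * χ h := by
    intro g h hg hh
    apply hinj
    rw [← hχ (g * h) (H.mul_mem hg hh), Units.val_mul, ← Matrix.mulVec_mulVec, hχ h hh,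
      Matrix.mulVec_smul, hχ g hg, smul_smul, mul_comm]
  let χ₁ : H →* ℂ :=
    { toFun := fun h => χ h
      map_one' := hχ1
      map_mul' := fun g h => hχmul g h g.2 h.2 }
  let δ : H →* ℂ :=
    { toFun := fun h => ((h : GL (Fin 2) ℂ) : Matrix (Fin 2) (Fin 2) ℂ).det
      map_one' := by simp
      map_mul' := fun g h => by simp }
  have hcard : Fintype.card H ≠ 0 := Fintype.card_ne_zero
  have hnorm : ∀ (φ : H →* ℂ) (h : H), ‖φ h‖ = 1 := by
    intro φ h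
    refine Complex.norm_eq_one_of_pow_eq_one (n := Fintype.card H) ?_ hcard
    rw [← map_pow, pow_card_eq_one, map_one]
  have hne : ∀ (φ : H →* ℂ) (h : H), φ h ≠ 0 := by
    intro φ h h0
    have := hnorm φ h
    rw [h0, norm_zero] at this
    exact zero_ne_one this
  let ψ : H →* ℂ :=
    { toFun := fun h => χ₁ h ^ 2 * (δ h)⁻¹
      map_one' := by simp
      map_mul' := fun g h => by
        simp only [map_mul, mul_pow, mul_inv]
        ring }
  have htr : ∀ h : H, ‖(((h : GL (Fin 2) ℂ) : Matrix (Fin 2) (Fin 2) ℂ)).trace‖ ^ 2 =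
      2 + 2 * (ψ h).re := by
    intro h
    have he := eigen_charEq ((h : GL (Fin 2) ℂ) : Matrix (Fin 2) (Fin 2) ℂ) v hv (χ h) (hχ h h.2)
    have hc0 : χ₁ h ≠ 0 := hne χ₁ h
    have hd0 : δ h ≠ 0 := hne δ h
    have htr' : (((h : GL (Fin 2) ℂ) : Matrix (Fin 2) (Fin 2) ℂ)).trace = χ₁ h + δ h / χ₁ h := by
      have he' : χ₁ h ^ 2 - (((h : GL (Fin 2) ℂ) : Matrix (Fin 2) (Fin 2) ℂ)).trace * χ₁ h
          + δ h = 0 := he
      field_simp
      linear_combination -he'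
    have hn2 : ‖δ h / χ₁ h‖ = 1 := by
      rw [norm_div, hnorm δ h, hnorm χ₁ h, div_one]
    have hconj : (starRingEnd ℂ) (δ h / χ₁ h) = (δ h / χ₁ h)⁻¹ :=
      (Complex.inv_eq_conj hn2).symm
    rw [htr', ← Complex.normSq_eq_norm_sq, Complex.normSq_add, Complex.normSq_eq_norm_sq,
      Complex.normSq_eq_norm_sq, hnorm χ₁ h, hn2, hconj]
    have hψ : χ₁ h * (δ h / χ₁ h)⁻¹ = ψ h := by
      show χ₁ h * (δ h / χ₁ h)⁻¹ = χ₁ h ^ 2 * (δ h)⁻¹
      field_simp
    rw [hψ]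
    ring
  simp_rw [htr]
  rw [Finset.sum_add_distrib, Finset.sum_const, Finset.card_univ, nsmul_eq_mul, ← Finset.mul_sum,
    ← Complex.re_sum]
  have hsum : 0 ≤ (∑ h : H, ψ h).re := by
    rw [sum_hom_units ψ]
    split_ifs
    · simp
    · simp
  linarith [mul_comm (2 : ℝ) (Fintype.card H : ℝ)]

end Fermat.Agent.S48.H308
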