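import Fermat.Agent.S48.Top.Spec
import Fermat.Agent.S48.H308.IrredAlg
import Fermat.Agent.S48.H308.IrredChar

/-!
# S48 (Deligne–Serre), glue piece IRR

`irreducible : Top.IrreduciblePiece`, i.e.
`RankinStatement → ChebDensityStatement → IrreducibleStatement`.

If `ρ` (finite image `H`, attached to `(f, ε)` away from `N`) had a stable line, then
`∑_{h ∈ H} ‖tr h‖² ≥ 2 |H|`.  By the Chebotarev density theorem the primes `p ∤ N` whose Frobenius
has trace `t` have lower density `≥ #{h : tr h = t} / |H|`, and `a_p = t` for them; summing over the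
finitely many `t`, `∑_p ‖a_p‖² p^{-s} ≥ (2 - 1/2) log (1/(s-1))` for `s → 1⁺`, which contradicts the
sharp Rankin bound `∑_p ‖a_p‖² p^{-s} ≤ log (1/(s-1)) + C`.
-/

set_option autoImplicit false

open Matrix

namespace Fermat.Agent.S48.H308

open Fermat.Agent.S48.Top Fermat.Agent.Lib.Cheb.Spec Fermat.Agent.Lib.Cheb.SpecQ

/-- **IRR**, exact `Top/Spec.lean` shape. -/
theorem irreducible : IrreduciblePiece := by
  intro hR hCheb N _ ε f hf ρ hfin hatt
  apply isIrreducible_of_no_stable_line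
  rintro ⟨v, hv0, hstab⟩
  classical
  obtain ⟨C, hC⟩ := hR N ε f hf
  have hRfin : (Set.range ρ).Finite := finite_range_of_factorsThroughFiniteLevel ρ hfin
  obtain ⟨L, hLfd, hL⟩ := hfin
  -- the finite group `H = ρ.range`
  have hHfin : Finite ρ.range := by
    have : Finite ↥(Set.range ρ) := hRfin.to_subtype
    have e : ↥(Set.range ρ) ≃ ρ.range :=
      { toFun := fun g => ⟨g.1, g.2⟩
        invFun := fun h => ⟨h.1, h.2⟩
        left_inv := fun _ => rfl
        right_inv := fun _ => rfl }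
    exact Finite.of_equiv ↥(Set.range ρ) e
  have hHft : Fintype ρ.range := Fintype.ofFinite _
  have hsum := two_mul_card_le_sum_norm_sq_trace ρ.range v hv0
    (by rintro h ⟨g, rfl⟩; exact hstab g)
  have hcardpos : (0 : ℝ) < Fintype.card ρ.range := by
    exact_mod_cast Fintype.card_pos
  -- traces and level sets
  set tr : ρ.range → ℂ := fun h => (((h : GL (Fin 2) ℂ) : Matrix (Fin 2) (Fin 2) ℂ)).trace with htr
  set Tr : Finset ℂ := Finset.univ.image tr with hTr
  have hTrne : Tr.Nonempty := ⟨tr 1, Finset.mem_image_of_mem tr (Finset.mem_univ _)⟩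
  set n : ℂ → ℕ := fun t => (Finset.univ.filter fun h : ρ.range => tr h = t).card with hn
  have hI1 : ∑ t ∈ Tr, ‖t‖ ^ 2 * (n t : ℝ) = ∑ h : ρ.range, ‖tr h‖ ^ 2 := by
    rw [← Finset.sum_fiberwise_of_maps_to (s := Finset.univ) (t := Tr) (g := tr)
      (fun h _ => Finset.mem_image_of_mem tr (Finset.mem_univ _))]
    refine Finset.sum_congr rfl fun t _ => ?_
    rw [Finset.sum_congr rfl (fun h hh => by rw [(Finset.mem_filter.mp hh).2] :
      ∀ h ∈ Finset.univ.filter (fun h : ρ.range => tr h = t), ‖tr h‖ ^ 2 = ‖t‖ ^ 2),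
      Finset.sum_const, nsmul_eq_mul, mul_comm]
  -- the Chebotarev sets
  set S : Finset ℕ := N.primeFactors with hS
  set Ct : ℂ → Set (GL (Fin 2) ℂ) := fun t => {g | (g : Matrix (Fin 2) (Fin 2) ℂ).trace = t}
    with hCt
  have hcardC : ∀ t, (Nat.card ↥(Ct t ∩ Set.range ρ) : ℝ) = n t := by
    intro t
    have e : ↥(Ct t ∩ Set.range ρ) ≃ {h : ρ.range // tr h = t} :=
      { toFun := fun g => ⟨⟨g.1, g.2.2⟩, g.2.1⟩
        invFun := fun h => ⟨h.1.1, h.2, h.1.2⟩
        left_inv := fun g => rfl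
        right_inv := fun h => rfl }
    rw [Nat.card_congr e, Nat.card_eq_fintype_card, Fintype.card_subtype]
  have hcardR : (Nat.card ↥(Set.range ρ) : ℝ) = Fintype.card ρ.range := by
    have e : ↥(Set.range ρ) ≃ ρ.range :=
      { toFun := fun g => ⟨g.1, g.2⟩
        invFun := fun h => ⟨h.1, h.2⟩
        left_inv := fun _ => rfl
        right_inv := fun _ => rfl }
    rw [Nat.card_congr e, Nat.card_eq_fintype_card]
  have hdens : ∀ t, HasLowerDensity (frobPrimesHom ρ (Ct t) S)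
      ((n t : ℝ) / (Fintype.card ρ.range : ℝ)) := by
    intro t
    have := hCheb (GL (Fin 2) ℂ) ρ L hLfd hL (Ct t) S
    rwa [hcardC, hcardR] at this
  -- primes in the Chebotarev sets
  have hprime : ∀ t p, p ∈ frobPrimesHom ρ (Ct t) S →
      p.Prime ∧ ¬ p ∣ N ∧ ModularFormClass.qCoeff f p = t := by
    rintro t p ⟨hp, hpS, A, τ, hA, hτ, -, hC⟩
    have hpN : ¬ p ∣ N := fun hdvd =>
      hpS (Nat.mem_primeFactors.mpr ⟨hp, hdvd, NeZero.ne N⟩)
    refine ⟨hp, hpN, ?_⟩
    have := ((hatt p hp hpN A hA).2 τ hτ).1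
    rw [← this]
    exact hC
  -- the choice of `ε₀`
  set Sg2 : ℝ := ∑ t ∈ Tr, ‖t‖ ^ 2 with hSg2
  have hSg20 : 0 ≤ Sg2 := Finset.sum_nonneg fun t _ => by positivity
  set ε₀ : ℝ := 1 / (2 * (1 + Sg2)) with hε₀
  have hε₀pos : 0 < ε₀ := by positivity
  have hε₀S : ε₀ * Sg2 ≤ 1 / 2 := by
    rw [hε₀, div_mul_eq_mul_div, one_mul, div_le_iff₀ (by positivity)]
    linarith
  choose δ hδpos hδ using fun t => hdens t ε₀ hε₀pos
  set δmin : ℝ := Tr.inf' hTrne δ with hδmin
  have hδminpos : 0 < δmin := by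
    rw [hδmin, Finset.lt_inf'_iff]
    exact fun t _ => hδpos t
  -- the choice of `s`
  set u : ℝ := min (δmin / 2) (Real.exp (-(2 * |C| + 1))) with hu
  have hupos : 0 < u := lt_min (by positivity) (Real.exp_pos _)
  have hu1 : u ≤ Real.exp (-(2 * |C| + 1)) := min_le_right _ _
  have hu2 : u < δmin := lt_of_le_of_lt (min_le_left _ _) (by linarith)
  have hu3 : u ≤ 1 := by
    refine hu1.trans ?_
    rw [Real.exp_le_one_iff]
    have := abs_nonneg C
    linarith
  set s : ℝ := 1 + u with hs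
  have hs1 : 1 < s := by linarith
  have hs2 : s ≤ 2 := by linarith
  have hsu : s - 1 = u := by rw [hs]; ring
  set Lg : ℝ := Real.log (1 / (s - 1)) with hLg
  have hLbig : 2 * |C| + 1 ≤ Lg := by
    rw [hLg, hsu, one_div, Real.log_inv]
    have : Real.log u ≤ -(2 * |C| + 1) := by
      rw [Real.log_le_iff_le_exp hupos]
      exact hu1
    linarith
  have hL0 : 0 ≤ Lg := by
    have := abs_nonneg C
    linarith
  -- the finite sets of primes
  have hsδ : ∀ t ∈ Tr, s < 1 + δ t := by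
    intro t ht
    have : δmin ≤ δ t := Finset.inf'_le δ ht
    linarith
  choose T hTsub hTsum using fun t => hδ t s hs1
  -- the sets `T t` (`t ∈ Tr`) are pairwise disjoint
  have hdisj : Set.PairwiseDisjoint (↑Tr : Set ℂ) fun t => if ht : s < 1 + δ t then T t ht else ∅ := by
    intro t ht t' ht' htt'
    simp only [Function.onFun, dif_pos (hsδ t ht), dif_pos (hsδ t' ht')]
    rw [Finset.disjoint_left]
    intro p hp hp'
    apply htt'
    rw [← (hprime t p (hTsub t (hsδ t ht) p hp)).2.2, ← (hprime t' p (hTsub t' (hsδ t' ht') p hp')).2.2]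
  set T' : ℂ → Finset ℕ := fun t => if ht : s < 1 + δ t then T t ht else ∅ with hT'
  have hT'eq : ∀ t (ht : t ∈ Tr), T' t = T t (hsδ t ht) := fun t ht => by
    simp only [hT', dif_pos (hsδ t ht)]
  set Ttot : Finset ℕ := Tr.biUnion T' with hTtot
  have hrankin := hC s hs1 hs2 Ttot (by
    intro p hp
    rw [hTtot, Finset.mem_biUnion] at hp
    obtain ⟨t, ht, hpt⟩ := hp
    rw [hT'eq t ht] at hpt
    have := hprime t p (hTsub t (hsδ t ht) p hpt)
    exact ⟨this.1, this.2.1⟩)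
  rw [hTtot, Finset.sum_biUnion hdisj] at hrankin
  have hlower : ∀ t ∈ Tr, ‖t‖ ^ 2 * (((n t : ℝ) / (Fintype.card ρ.range : ℝ) - ε₀) * Lg) ≤
      ∑ p ∈ T' t, ‖ModularFormClass.qCoeff f p‖ ^ 2 * (p : ℝ) ^ (-s) := by
    intro t ht
    rw [hT'eq t ht]
    have h1 : ∑ p ∈ T t (hsδ t ht), ‖ModularFormClass.qCoeff f p‖ ^ 2 * (p : ℝ) ^ (-s) =
        ‖t‖ ^ 2 * ∑ p ∈ T t (hsδ t ht), (p : ℝ) ^ (-s) := by
      rw [Finset.mul_sum]
      refine Finset.sum_congr rfl fun p hp => ?_
      rw [(hprime t p (hTsub t (hsδ t ht) p hp)).2.2]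
    rw [h1]
    exact mul_le_mul_of_nonneg_left (hTsum t (hsδ t ht)) (by positivity)
  have hfinal : (3 / 2 : ℝ) * Lg ≤ Lg + C := by
    calc (3 / 2 : ℝ) * Lg ≤ (2 - ε₀ * Sg2) * Lg := by
          apply mul_le_mul_of_nonneg_right _ hL0
          linarith
      _ ≤ ((∑ t ∈ Tr, ‖t‖ ^ 2 * (n t : ℝ)) / (Fintype.card ρ.range : ℝ) - ε₀ * Sg2) * Lg := by
          apply mul_le_mul_of_nonneg_right _ hL0
          have : (2 : ℝ) ≤ (∑ t ∈ Tr, ‖t‖ ^ 2 * (n t : ℝ)) / (Fintype.card ρ.range : ℝ) := by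
            rw [le_div_iff₀ hcardpos, hI1]
            exact hsum
          linarith
      _ = ∑ t ∈ Tr, ‖t‖ ^ 2 * (((n t : ℝ) / (Fintype.card ρ.range : ℝ) - ε₀) * Lg) := by
          rw [hSg2, Finset.sum_div, Finset.mul_sum, ← Finset.sum_sub_distrib, Finset.sum_mul]
          refine Finset.sum_congr rfl fun t _ => ?_
          ring
      _ ≤ ∑ t ∈ Tr, ∑ p ∈ T' t, ‖ModularFormClass.qCoeff f p‖ ^ 2 * (p : ℝ) ^ (-s) :=
          Finset.sum_le_sum hlower
      _ ≤ Lg + C := hrankin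
  have := le_abs_self C
  linarith

end Fermat.Agent.S48.H308
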