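import Fermat.Agent.S48.H308.RankinEuler
import Fermat.Agent.S48.H648.MeanSquare
import Fermat.Agent.S48.H648.DirichletBound
import Fermat.Prelude.Def_FLTPrelim_Modularity

/-!
# S48 (Deligne–Serre), piece RANKIN: the final bound for weight one forms on `Γ₁(N)`

For `f : CuspForm (Gamma1 N) 1` with `a₁ = 1` satisfying the Hecke relations `hT` of the frozen
statement S48 (for an arbitrary Dirichlet character `ε`), there is a constant `C` with

  `∑_{p ∈ P} ‖a_p‖² p^{-s} ≤ log (1 / (s - 1)) + C`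

for all `1 < s ≤ 2` and all finite sets `P` of primes not dividing `N`
(`rankin_bound`; constant `1` in front of the logarithm, no boundedness hypothesis on `a_p`).

Ingredients: the mean square bound `∑_{n ≤ x} ‖a_n‖² ≤ C x` and the dyadic bound for the Dirichlet
series (helper648, `H648/MeanSquare.lean`, `H648/DirichletBound.lean`), and the Euler product
argument with the sharp local inequality (`RankinLocal.lean`, `RankinEuler.lean`).
-/

set_option autoImplicit false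

namespace Fermat.Agent.S48.H308

open CongruenceSubgroup UpperHalfPlane
open scoped MatrixGroups

/-- `1` is a strict period of (the image in `GL₂(ℝ)` of) `Γ₁(N)`. -/
lemma one_mem_strictPeriods_Gamma1 (N : ℕ) :
    (1 : ℝ) ∈ (Subgroup.map (Matrix.SpecialLinearGroup.mapGL ℝ) (Gamma1 N)).strictPeriods := by
  have hT : ModularGroup.T ∈ Gamma1 N := by
    rw [Gamma1_mem]
    simp [ModularGroup.T]
  rw [Subgroup.strictPeriods_eq_zmultiples_one_of_T_mem hT]
  exact AddSubgroup.mem_zmultiples (1 : ℝ)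

/-- Mean square bound for the `q`-expansion coefficients of a weight one cusp form on `Γ₁(N)`. -/
theorem rankin_meanSquare (N : ℕ) [NeZero N] (f : CuspForm (Gamma1 N) 1) :
    ∃ C : ℝ, 0 ≤ C ∧ ∀ x : ℕ, 1 ≤ x →
      ∑ n ∈ Finset.range (x + 1), ‖ModularFormClass.qCoeff f n‖ ^ 2 ≤ C * (x : ℝ) := by
  obtain ⟨C, hC, h⟩ := Fermat.Agent.S48.H648.exists_sum_sq_coeff_le
    (Γ := Subgroup.map (Matrix.SpecialLinearGroup.mapGL ℝ) (Gamma1 N)) (k := 1) f
    (h := 1) one_pos (one_mem_strictPeriods_Gamma1 N)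
  refine ⟨C, hC, fun x hx => ?_⟩
  have := h x hx
  simpa [ModularFormClass.qCoeff] using this

/-- Bound for the Dirichlet series `∑ ‖a_n‖² n^{-s}` on `(1, 2]`. -/
theorem rankin_dirichlet (N : ℕ) [NeZero N] (f : CuspForm (Gamma1 N) 1) :
    ∃ C : ℝ, 0 < C ∧ ∀ s : ℝ, 1 < s → s ≤ 2 → ∀ F : Finset ℕ,
      ∑ n ∈ F, ‖ModularFormClass.qCoeff f n‖ ^ 2 * (n : ℝ) ^ (-s) ≤ C / (s - 1) := by
  obtain ⟨C, hC, h⟩ := rankin_meanSquare N f
  refine ⟨4 * C + 1, by positivity, fun s hs hs2 F => ?_⟩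
  classical
  have hsplit : ∑ n ∈ F, ‖ModularFormClass.qCoeff f n‖ ^ 2 * (n : ℝ) ^ (-s) =
      ∑ n ∈ F.filter (fun n => 1 ≤ n), ‖ModularFormClass.qCoeff f n‖ ^ 2 * (n : ℝ) ^ (-s) := by
    rw [Finset.sum_filter]
    refine Finset.sum_congr rfl fun n _ => ?_
    split_ifs with hn
    · rfl
    · have hn0 : n = 0 := by omega
      subst hn0
      rw [Nat.cast_zero, Real.zero_rpow (by linarith), mul_zero]
  rw [hsplit]
  have key := Fermat.Agent.S48.H648.sum_mul_rpow_neg_le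
    (b := fun n => ‖ModularFormClass.qCoeff f n‖ ^ 2) (fun n => by positivity) hC
    (κ := 1) zero_le_one
    (fun x hx => by simpa using h x hx) (σ := s) hs (by linarith)
    (F.filter (fun n => 1 ≤ n)) (fun n hn => (Finset.mem_filter.mp hn).2)
  refine key.trans ?_
  have hs0 : 0 < s - 1 := by linarith
  have e : (2 : ℝ) ^ ((1 : ℝ) + 1) = 4 := by
    rw [Real.rpow_add (by norm_num), Real.rpow_one]; norm_num
  rw [e]
  gcongr
  linarith

/-- **Rankin bound** (Deligne–Serre, §5), elementary form: for a weight one cusp form on `Γ₁(N)`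
with `a₁ = 1` satisfying the Hecke relations of S48 at the primes `p ∤ N`,
`∑_{p ∈ P} ‖a_p‖² p^{-s} ≤ log (1/(s-1)) + C` for `1 < s ≤ 2`, uniformly in the finite set `P` of
primes not dividing `N`. -/
theorem rankin_bound (N : ℕ) [NeZero N] (ε : DirichletCharacter ℂ N) (f : CuspForm (Gamma1 N) 1)
    (hf₁ : ModularFormClass.qCoeff f 1 = 1)
    (hT : ∀ p : ℕ, p.Prime → ¬ p ∣ N → ∀ n : ℕ,
        ModularFormClass.qCoeff f (p * n) +
            ε (p : ZMod N) * (if p ∣ n then ModularFormClass.qCoeff f (n / p) else 0) =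
          ModularFormClass.qCoeff f p * ModularFormClass.qCoeff f n) :
    ∃ C : ℝ, ∀ s : ℝ, 1 < s → s ≤ 2 → ∀ P : Finset ℕ, (∀ p ∈ P, p.Prime ∧ ¬ p ∣ N) →
      ∑ p ∈ P, ‖ModularFormClass.qCoeff f p‖ ^ 2 * (p : ℝ) ^ (-s) ≤
        Real.log (1 / (s - 1)) + C := by
  obtain ⟨C, hC, h⟩ := rankin_dirichlet N f
  refine ⟨Real.log C + 2, fun s hs hs2 P hP => ?_⟩
  have hε : ∀ p : ℕ, p.Prime → ¬ p ∣ N → ‖(fun p : ℕ => ε (p : ZMod N)) p‖ = 1 := by
    intro p hp hpN
    have hu : IsUnit ((p : ℕ) : ZMod N) := by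
      rw [ZMod.isUnit_iff_coprime]
      exact (Nat.Prime.coprime_iff_not_dvd hp).mpr hpN
    obtain ⟨u, hu⟩ := hu
    show ‖ε (p : ZMod N)‖ = 1
    rw [← hu]
    exact DirichletCharacter.unit_norm_eq_one ε u
  have key := rankin_abs N (fun n => ModularFormClass.qCoeff f n) (fun p : ℕ => ε (p : ZMod N))
    hf₁ hT hε s hs (C / (s - 1)) (h s hs hs2) P hP
  have hs0 : 0 < s - 1 := by linarith
  have hlog : Real.log (C / (s - 1)) = Real.log (1 / (s - 1)) + Real.log C := by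
    rw [div_eq_mul_one_div, Real.log_mul hC.ne' (one_div_pos.mpr hs0).ne']
    ring
  rw [hlog] at key
  linarith

/-- Consequence: the primes `p ∤ N` with `‖a_p‖² ≥ c` are "of upper density at most `1/c`":
`c · ∑_{p ∈ P, ‖a_p‖² ≥ c} p^{-s} ≤ log (1/(s-1)) + C`. -/
theorem rankin_density (N : ℕ) [NeZero N] (ε : DirichletCharacter ℂ N) (f : CuspForm (Gamma1 N) 1)
    (hf₁ : ModularFormClass.qCoeff f 1 = 1)
    (hT : ∀ p : ℕ, p.Prime → ¬ p ∣ N → ∀ n : ℕ,
        ModularFormClass.qCoeff f (p * n) +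
            ε (p : ZMod N) * (if p ∣ n then ModularFormClass.qCoeff f (n / p) else 0) =
          ModularFormClass.qCoeff f p * ModularFormClass.qCoeff f n) :
    ∃ C : ℝ, ∀ c : ℝ, ∀ s : ℝ, 1 < s → s ≤ 2 → ∀ P : Finset ℕ,
      (∀ p ∈ P, p.Prime ∧ ¬ p ∣ N ∧ c ≤ ‖ModularFormClass.qCoeff f p‖ ^ 2) →
      c * ∑ p ∈ P, (p : ℝ) ^ (-s) ≤ Real.log (1 / (s - 1)) + C := by
  obtain ⟨C, h⟩ := rankin_bound N ε f hf₁ hT
  refine ⟨C, fun c s hs hs2 P hP => ?_⟩
  refine le_trans ?_ (h s hs hs2 P fun p hp => ⟨(hP p hp).1, (hP p hp).2.1⟩)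
  rw [Finset.mul_sum]
  refine Finset.sum_le_sum fun p hp => ?_
  exact mul_le_mul_of_nonneg_right (hP p hp).2.2 (Real.rpow_nonneg (Nat.cast_nonneg p) _)

end Fermat.Agent.S48.H308
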