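import Mathlib

/-!
# S48 (Deligne–Serre), piece RANKIN, part 1: the local inequality

For a sequence `b 0 = 1`, `b 1 = a`, `b (e+2) = a * b (e+1) - ε * b e` with `‖ε‖ = 1`
(the Hecke eigenvalues at the powers of a prime `p ∤ N`) and `0 ≤ X < 1`:

  `exp (‖a‖² X) * (1 - X²) ≤ ∑' e, ‖b e‖² X^e`.

Proof: expand `a^m` in the "Chebyshev basis" `b_e` (`a b_e = b_{e+1} + ε b_{e-1}`), Cauchy–Schwarz
with `∑_e κ_{m,e}² ≤ m!`, and a Cauchy product with `1/(1 - X²)`.
No roots of the Hecke polynomial and no convergence discussion is needed.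
-/

set_option autoImplicit false

namespace Fermat.Agent.S48.H308

open Finset

/-- Coefficient of `b_e` in `a^m`, where `a b_e = b_{e+1} + b_{e-1}` (`b_{-1} = 0`). -/
noncomputable def kap : ℕ → ℕ → ℝ
  | 0, e => if e = 0 then 1 else 0
  | m + 1, e => (if e = 0 then 0 else kap m (e - 1)) + kap m (e + 1)

lemma kap_zero (e : ℕ) : kap 0 e = if e = 0 then 1 else 0 := by
  rw [kap]

lemma kap_succ (m e : ℕ) :
    kap (m + 1) e = (if e = 0 then 0 else kap m (e - 1)) + kap m (e + 1) := by
  rw [kap]

lemma kap_succ_zero (m : ℕ) : kap (m + 1) 0 = kap m 1 := by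
  rw [kap_succ]; simp

lemma kap_succ_succ (m e : ℕ) : kap (m + 1) (e + 1) = kap m e + kap m (e + 2) := by
  rw [kap_succ]; simp

lemma kap_nonneg (m e : ℕ) : 0 ≤ kap m e := by
  induction m generalizing e with
  | zero => rw [kap_zero]; split_ifs <;> norm_num
  | succ m ih =>
    rw [kap_succ]
    split_ifs
    · simpa using ih (e + 1)
    · exact add_nonneg (ih _) (ih _)

lemma kap_eq_zero_of_lt {m e : ℕ} (h : m < e) : kap m e = 0 := by
  induction m generalizing e with
  | zero => rw [kap_zero, if_neg (by omega)]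
  | succ m ih =>
    rw [kap_succ, if_neg (by omega), ih (by omega), ih (by omega), add_zero]

lemma kap_eq_zero_of_odd {m e : ℕ} (h : ¬ Even (m + e)) : kap m e = 0 := by
  induction m generalizing e with
  | zero =>
    rw [kap_zero, if_neg]
    rintro rfl
    exact h (by simp)
  | succ m ih =>
    rw [kap_succ]
    have h2 : kap m (e + 1) = 0 := ih (by
      intro hev; apply h
      have : m + 1 + e = m + (e + 1) := by ring
      rw [this]; exact hev)
    rw [h2, add_zero]
    split_ifs with he
    · rfl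
    · apply ih
      intro hev; apply h
      obtain ⟨e', rfl⟩ : ∃ e', e = e' + 1 := ⟨e - 1, by omega⟩
      simp only [Nat.add_sub_cancel] at hev
      have : m + 1 + (e' + 1) = (m + e') + 2 := by ring
      rw [this]
      exact hev.add (by decide)

/-- `S m = ∑_e κ_{m,e}²` (a Catalan number). -/
noncomputable def kapSq (m : ℕ) : ℝ := ∑ e ∈ range (m + 1), kap m e ^ 2

lemma kapSq_nonneg (m : ℕ) : 0 ≤ kapSq m := sum_nonneg fun _ _ => sq_nonneg _

lemma kapSq_eq_of_le {m K : ℕ} (h : m + 1 ≤ K) : kapSq m = ∑ e ∈ range K, kap m e ^ 2 := by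
  unfold kapSq
  refine Finset.sum_subset (by intro x; simp only [mem_range]; omega) ?_
  intro x _ hx
  simp only [mem_range, not_lt] at hx
  rw [kap_eq_zero_of_lt (by omega)]; norm_num

lemma kapSq_succ_le (m : ℕ) : kapSq (m + 1) ≤ 4 * kapSq m := by
  have h1 : kapSq (m + 1) = ∑ e ∈ range (m + 2), kap (m + 1) e ^ 2 := rfl
  have hA : ∑ e ∈ range (m + 2), (if e = 0 then 0 else kap m (e - 1)) ^ 2 = kapSq m := by
    rw [Finset.sum_range_succ']
    simp only [if_true, Nat.add_sub_cancel, Nat.succ_ne_zero, if_false,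
      ne_eq, not_false_eq_true, zero_pow, add_zero, OfNat.ofNat_ne_zero]
    rfl
  have hB : ∑ e ∈ range (m + 2), kap m (e + 1) ^ 2 ≤ kapSq m := by
    have : kapSq m = ∑ e ∈ range (m + 3), kap m e ^ 2 := kapSq_eq_of_le (by omega)
    rw [this, Finset.sum_range_succ' _ (m + 2)]
    have := sq_nonneg (kap m 0)
    linarith
  rw [h1]
  calc ∑ e ∈ range (m + 2), kap (m + 1) e ^ 2
      ≤ ∑ e ∈ range (m + 2), (2 * (if e = 0 then 0 else kap m (e - 1)) ^ 2
          + 2 * kap m (e + 1) ^ 2) := by
        apply Finset.sum_le_sum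
        intro e _
        rw [kap_succ]
        nlinarith [sq_nonneg ((if e = 0 then 0 else kap m (e - 1)) - kap m (e + 1))]
    _ = 2 * ∑ e ∈ range (m + 2), (if e = 0 then 0 else kap m (e - 1)) ^ 2
          + 2 * ∑ e ∈ range (m + 2), kap m (e + 1) ^ 2 := by
        rw [Finset.sum_add_distrib, Finset.mul_sum, Finset.mul_sum]
    _ ≤ 4 * kapSq m := by rw [hA]; linarith

lemma kapSq_le_factorial (m : ℕ) : kapSq m ≤ (m.factorial : ℝ) := by
  have h0 : kapSq 0 = 1 := by simp [kapSq, kap_zero]
  have h1 : kapSq 1 = 1 := by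
    simp [kapSq, Finset.sum_range_succ, kap_succ, kap_zero]
  have h2 : kapSq 2 = 2 := by
    simp [kapSq, Finset.sum_range_succ, kap_succ, kap_zero]
    norm_num
  have h3 : kapSq 3 = 5 := by
    simp [kapSq, Finset.sum_range_succ, kap_succ, kap_zero]
    norm_num
  induction m with
  | zero => rw [h0]; simp
  | succ m ih =>
    rcases Nat.lt_or_ge m 3 with hm | hm
    · interval_cases m
      · rw [h1]; simp
      · rw [h2]; simp [Nat.factorial]
      · rw [h3]; simp [Nat.factorial]; norm_num
    · calc kapSq (m + 1) ≤ 4 * kapSq m := kapSq_succ_le m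
        _ ≤ (m + 1 : ℝ) * kapSq m := by
          apply mul_le_mul_of_nonneg_right _ (kapSq_nonneg m)
          have : (3 : ℝ) ≤ m := by exact_mod_cast hm
          linarith
        _ ≤ (m + 1 : ℝ) * (m.factorial : ℝ) := by
          apply mul_le_mul_of_nonneg_left ih; positivity
        _ = ((m + 1).factorial : ℝ) := by
          rw [Nat.factorial_succ]; push_cast; ring

/-- Expansion of `a^m` in the basis `b_e`, for `ε = 1`. -/
lemma pow_eq_sum_kap {a : ℂ} {b : ℕ → ℂ} (hb0 : b 0 = 1) (hb1 : b 1 = a)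
    (hrec : ∀ e, b (e + 2) = a * b (e + 1) - b e) (m : ℕ) :
    a ^ m = ∑ e ∈ range (m + 1), (kap m e : ℂ) * b e := by
  induction m with
  | zero => simp [kap_zero, hb0]
  | succ m ih =>
    have hab : ∀ e, a * b (e + 1) = b (e + 2) + b e := fun e => by rw [hrec e]; ring
    -- left side
    have hL : a ^ (m + 1) = (kap m 0 : ℂ) * b 1
        + ∑ e ∈ range m, (kap m (e + 1) : ℂ) * (b (e + 2) + b e) := by
      rw [pow_succ, ih, Finset.sum_mul, Finset.sum_range_succ']
      rw [add_comm]
      congr 1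
      · rw [hb0, hb1]; ring
      · apply Finset.sum_congr rfl
        intro e _
        rw [← hab e]; ring
    -- right side
    have hR : ∑ e ∈ range (m + 1 + 1), (kap (m + 1) e : ℂ) * b e
        = (∑ e ∈ range (m + 1), (kap m e : ℂ) * b (e + 1))
          + ∑ e ∈ range m, (kap m (e + 1) : ℂ) * b e := by
      have hsplit : ∀ e, (kap (m + 1) e : ℂ) * b e
          = ((if e = 0 then 0 else kap m (e - 1) : ℝ) : ℂ) * b e + (kap m (e + 1) : ℂ) * b e := by
        intro e
        rw [kap_succ]; push_cast; ring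
      rw [Finset.sum_congr rfl (fun e _ => hsplit e), Finset.sum_add_distrib]
      congr 1
      · rw [Finset.sum_range_succ']
        simp
      · rw [Finset.sum_range_succ, Finset.sum_range_succ]
        rw [kap_eq_zero_of_lt (show m < m + 1 by omega),
          kap_eq_zero_of_lt (show m < m + 1 + 1 by omega)]
        simp
    rw [hL, hR, Finset.sum_range_succ' (fun e => (kap m e : ℂ) * b (e + 1))]
    simp only [mul_add, Finset.sum_add_distrib]
    ring

end Fermat.Agent.S48.H308
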