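import Fermat.Agent.S48.H308.RankinLocal

/-!
# S48 (Deligne–Serre), piece RANKIN, part 3: from a bound on the Dirichlet series to the
# Rankin bound over primes (Euler product, no analytic continuation)

`rankin_abs`: if `a 1 = 1`, the Hecke relations hold at all primes `p ∤ N` with `‖ε p‖ = 1`, and all
finite partial sums of `∑ ‖a n‖² n^{-s}` are `≤ D`, then for every finite set `P` of primes not
dividing `N`:   `∑_{p ∈ P} ‖a p‖² p^{-s} ≤ log D + 2`.
-/

set_option autoImplicit false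

namespace Fermat.Agent.S48.H308

open Finset

section Mult

variable {N : ℕ} {a : ℕ → ℂ} {ε : ℕ → ℂ}

/-- Hecke relation at prime powers. -/
lemma hecke_rec (hT : ∀ p : ℕ, p.Prime → ¬ p ∣ N → ∀ n : ℕ,
      a (p * n) + ε p * (if p ∣ n then a (n / p) else 0) = a p * a n)
    {p : ℕ} (hp : p.Prime) (hpN : ¬ p ∣ N) (n : ℕ) (e : ℕ) :
    a (p ^ (e + 2) * n) = a p * a (p ^ (e + 1) * n) - ε p * a (p ^ e * n) := by
  have h := hT p hp hpN (p ^ (e + 1) * n)
  have hdvd : p ∣ p ^ (e + 1) * n := Dvd.dvd.mul_right (dvd_pow_self p (by omega)) n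
  rw [if_pos hdvd] at h
  have hdiv : p ^ (e + 1) * n / p = p ^ e * n := by
    rw [pow_succ, mul_assoc, mul_comm p n, ← mul_assoc, Nat.mul_div_cancel _ hp.pos]
  rw [hdiv] at h
  have hmul : p * (p ^ (e + 1) * n) = p ^ (e + 2) * n := by ring
  rw [hmul] at h
  linear_combination h

lemma hecke_prime_pow_mul (h1 : a 1 = 1)
    (hT : ∀ p : ℕ, p.Prime → ¬ p ∣ N → ∀ n : ℕ,
      a (p * n) + ε p * (if p ∣ n then a (n / p) else 0) = a p * a n)
    {p : ℕ} (hp : p.Prime) (hpN : ¬ p ∣ N) {n : ℕ} (hn : ¬ p ∣ n) (e : ℕ) :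
    a (p ^ e * n) = a (p ^ e) * a n := by
  have key : ∀ e, a (p ^ e * n) = a (p ^ e) * a n ∧ a (p ^ (e + 1) * n) = a (p ^ (e + 1)) * a n := by
    intro e
    induction e with
    | zero =>
      refine ⟨by simp [h1], ?_⟩
      have h := hT p hp hpN n
      rw [if_neg hn] at h
      simpa using h
    | succ e ih =>
      refine ⟨ih.2, ?_⟩
      have hr := hecke_rec hT hp hpN n e
      have hr1 := hecke_rec hT hp hpN 1 e
      simp only [mul_one] at hr1
      rw [hr, ih.1, ih.2, hr1]; ring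
  exact (key e).1

lemma hecke_mul (h1 : a 1 = 1)
    (hT : ∀ p : ℕ, p.Prime → ¬ p ∣ N → ∀ n : ℕ,
      a (p * n) + ε p * (if p ∣ n then a (n / p) else 0) = a p * a n) :
    ∀ m : ℕ, Nat.Coprime m N → ∀ n : ℕ, Nat.Coprime m n → a (m * n) = a m * a n := by
  intro m
  induction m using Nat.recOnPosPrimePosCoprime with
  | prime_pow p k hp hk =>
    intro hN n hn
    have hpN : ¬ p ∣ N := by
      intro hd
      have := (Nat.coprime_pow_left_iff hk p N).mp hN
      exact hp.one_lt.ne' (Nat.Coprime.eq_one_of_dvd this hd)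
    have hpn : ¬ p ∣ n := by
      intro hd
      have := (Nat.coprime_pow_left_iff hk p n).mp hn
      exact hp.one_lt.ne' (Nat.Coprime.eq_one_of_dvd this hd)
    exact hecke_prime_pow_mul h1 hT hp hpN hpn k
  | zero =>
    intro _ n hn
    have : n = 1 := by simpa using hn
    subst this
    simp [h1]
  | one =>
    intro _ n _
    simp [h1]
  | coprime x y hx hy hxy ihx ihy =>
    intro hN n hn
    have hxN : Nat.Coprime x N := Nat.Coprime.coprime_mul_right hN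
    have hyN : Nat.Coprime y N := Nat.Coprime.coprime_mul_left hN
    have hxn : Nat.Coprime x n := Nat.Coprime.coprime_mul_right hn
    have hyn : Nat.Coprime y n := Nat.Coprime.coprime_mul_left hn
    rw [mul_assoc, ihx hxN (y * n) (Nat.Coprime.mul_right hxy hxn), ihy hyN n hyn,
      ihx hxN y hxy]
    ring

end Mult

/-- `1 - x ≥ exp (-2x)` on `[0, 1/2]`. -/
lemma exp_neg_two_mul_le {x : ℝ} (h0 : 0 ≤ x) (h1 : x ≤ 1 / 2) :
    Real.exp (-(2 * x)) ≤ 1 - x := by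
  have h2 : 1 + 2 * x ≤ Real.exp (2 * x) := by
    have := Real.add_one_le_exp (2 * x); linarith
  have hpos : 0 < 1 + 2 * x := by linarith
  rw [Real.exp_neg]
  calc (Real.exp (2 * x))⁻¹ ≤ (1 + 2 * x)⁻¹ := inv_anti₀ hpos h2
    _ ≤ 1 - x := by
      rw [inv_le_iff_one_le_mul₀ hpos]
      nlinarith

/-- `∑_{p ∈ P} 1/p² ≤ 1` over any finite set of integers `≥ 2`. -/
lemma sum_inv_sq_le_one (P : Finset ℕ) (hP : ∀ p ∈ P, 2 ≤ p) :
    ∑ p ∈ P, ((p : ℝ) ^ 2)⁻¹ ≤ 1 := by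
  -- compare with the telescoping sum over `2 ≤ n ≤ M`
  have htel : ∀ M : ℕ, ∑ n ∈ Finset.Icc 2 M, ((n : ℝ) ^ 2)⁻¹ ≤ 1 - 1 / (max M 1 : ℝ) := by
    intro M
    induction M with
    | zero => simp
    | succ M ih =>
      rcases Nat.lt_or_ge M 1 with hM | hM
      · have : M = 0 := by omega
        subst this
        simp
      · rw [Finset.sum_Icc_succ_top (by omega : 2 ≤ M + 1)]
        have hM1 : (1 : ℝ) ≤ M := by exact_mod_cast hM
        have e1 : (max (M : ℝ) 1) = M := max_eq_left hM1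
        have e2 : (max ((M + 1 : ℕ) : ℝ) 1) = (M : ℝ) + 1 := by
          push_cast; exact max_eq_left (by linarith)
        rw [e1] at ih
        rw [e2]
        have hpos : (0 : ℝ) < M := by linarith
        have hpos1 : (0 : ℝ) < (M : ℝ) + 1 := by linarith
        have hstep : (((M + 1 : ℕ) : ℝ) ^ 2)⁻¹ ≤ 1 / (M : ℝ) - 1 / ((M : ℝ) + 1) := by
          push_cast
          rw [div_sub_div _ _ hpos.ne' hpos1.ne', inv_eq_one_div,
            div_le_div_iff₀ (by positivity) (by positivity)]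
          nlinarith
        linarith
  obtain ⟨M, hM⟩ : ∃ M, ∀ p ∈ P, p ≤ M := ⟨P.sup id, fun p hp => Finset.le_sup (f := id) hp⟩
  calc ∑ p ∈ P, ((p : ℝ) ^ 2)⁻¹ ≤ ∑ n ∈ Finset.Icc 2 M, ((n : ℝ) ^ 2)⁻¹ := by
        apply Finset.sum_le_sum_of_subset_of_nonneg
        · intro p hp
          rw [Finset.mem_Icc]
          exact ⟨hP p hp, hM p hp⟩
        · intro _ _ _; positivity
    _ ≤ 1 - 1 / (max M 1 : ℝ) := htel M
    _ ≤ 1 := by
        have : (0 : ℝ) ≤ 1 / (max M 1 : ℝ) := by positivity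
        linarith

lemma cast_pow_rpow (p e : ℕ) (s : ℝ) :
    ((p ^ e : ℕ) : ℝ) ^ (-s) = ((p : ℝ) ^ (-s)) ^ e := by
  rw [Nat.cast_pow, ← Real.rpow_natCast ((p : ℝ) ^ (-s)) e, ← Real.rpow_mul (Nat.cast_nonneg p),
    mul_comm, Real.rpow_mul (Nat.cast_nonneg p), Real.rpow_natCast]

/-- **Abstract Rankin bound.** -/
theorem rankin_abs (N : ℕ) (a : ℕ → ℂ) (ε : ℕ → ℂ) (h1 : a 1 = 1)
    (hT : ∀ p : ℕ, p.Prime → ¬ p ∣ N → ∀ n : ℕ,
      a (p * n) + ε p * (if p ∣ n then a (n / p) else 0) = a p * a n)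
    (hε : ∀ p : ℕ, p.Prime → ¬ p ∣ N → ‖ε p‖ = 1)
    (s : ℝ) (hs : 1 < s) (D : ℝ)
    (hD : ∀ F : Finset ℕ, ∑ n ∈ F, ‖a n‖ ^ 2 * (n : ℝ) ^ (-s) ≤ D)
    (P : Finset ℕ) (hP : ∀ p ∈ P, p.Prime ∧ ¬ p ∣ N) :
    ∑ p ∈ P, ‖a p‖ ^ 2 * (p : ℝ) ^ (-s) ≤ Real.log D + 2 := by
  classical
  -- the multiplicative function
  set g : ℕ → ℝ := fun n => if Nat.Coprime n N then ‖a n‖ ^ 2 * (n : ℝ) ^ (-s) else 0 with hg
  have hg_nonneg : ∀ n, 0 ≤ g n := by
    intro n; simp only [hg]; split_ifs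
    · positivity
    · exact le_rfl
  have hg_le : ∀ n, g n ≤ ‖a n‖ ^ 2 * (n : ℝ) ^ (-s) := by
    intro n; simp only [hg]; split_ifs
    · exact le_rfl
    · positivity
  have hg1 : g 1 = 1 := by simp [hg, h1]
  have hgmul : ∀ {m n : ℕ}, Nat.Coprime m n → g (m * n) = g m * g n := by
    intro m n hmn
    simp only [hg]
    by_cases hm : Nat.Coprime m N
    · by_cases hn : Nat.Coprime n N
      · rw [if_pos (Nat.Coprime.mul_left hm hn), if_pos hm, if_pos hn,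
          hecke_mul h1 hT m hm n hmn, norm_mul, Nat.cast_mul,
          Real.mul_rpow (Nat.cast_nonneg m) (Nat.cast_nonneg n)]
        ring
      · rw [if_neg hn, mul_zero, if_neg]
        exact fun h => hn (Nat.Coprime.coprime_mul_left h)
    · rw [if_neg hm, zero_mul, if_neg]
      exact fun h => hm (Nat.Coprime.coprime_mul_right h)
  have hgsum : Summable g := by
    apply summable_of_sum_le hg_nonneg (c := D)
    intro F
    exact (Finset.sum_le_sum fun n _ => hg_le n).trans (hD F)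
  have hgnorm : Summable fun n => ‖g n‖ := by
    simpa [Real.norm_of_nonneg (hg_nonneg _)] using hgsum
  have hgtsum : ∑' n, g n ≤ D := by
    apply hgsum.tsum_le_of_sum_le
    intro F
    exact (Finset.sum_le_sum fun n _ => hg_le n).trans (hD F)
  have hD1 : 1 ≤ D := by
    have := hD {1}
    simpa [h1] using this
  -- Euler product over `P`
  have hPprime : P.filter Nat.Prime = P := by
    apply Finset.filter_true_of_mem
    intro p hp; exact (hP p hp).1
  have heul : ∏ p ∈ P, ∑' e : ℕ, g (p ^ e) ≤ D := by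
    have h := EulerProduct.prod_filter_prime_tsum_eq_tsum_factoredNumbers hg1 hgmul hgnorm P
    rw [hPprime] at h
    rw [h]
    refine le_trans ?_ hgtsum
    exact hgsum.tsum_subtype_le _ _ hg_nonneg
  -- local factors
  have hloc : ∀ p ∈ P, Real.exp (‖a p‖ ^ 2 * (p : ℝ) ^ (-s)) * (1 - ((p : ℝ) ^ (-s)) ^ 2)
      ≤ ∑' e : ℕ, g (p ^ e) := by
    intro p hp
    obtain ⟨hpp, hpN⟩ := hP p hp
    have hp0 : (0 : ℝ) < p := by exact_mod_cast hpp.pos
    have hp1 : (1 : ℝ) < p := by exact_mod_cast hpp.one_lt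
    set X : ℝ := (p : ℝ) ^ (-s) with hX
    have hX0 : 0 ≤ X := by positivity
    have hX1 : X < 1 := Real.rpow_lt_one_of_one_lt_of_neg hp1 (by linarith)
    have hcop : ∀ e : ℕ, Nat.Coprime (p ^ e) N := by
      intro e
      apply Nat.Coprime.pow_left
      exact (Nat.Prime.coprime_iff_not_dvd hpp).mpr hpN
    have hge : ∀ e : ℕ, g (p ^ e) = ‖a (p ^ e)‖ ^ 2 * X ^ e := by
      intro e
      simp only [hg]
      rw [if_pos (hcop e), hX, cast_pow_rpow]
    have hsumloc : Summable fun e : ℕ => ‖a (p ^ e)‖ ^ 2 * X ^ e := by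
      have := hgsum.comp_injective (Nat.pow_right_injective hpp.two_le)
      simpa [Function.comp_def, hge] using this
    have hrec : ∀ e, a (p ^ (e + 2)) = a p * a (p ^ (e + 1)) - ε p * a (p ^ e) := by
      intro e
      have := hecke_rec hT hpp hpN 1 e
      simpa using this
    have := local_ineq (hε p hpp hpN) (b := fun e => a (p ^ e)) (by simp [h1]) (by simp)
      hrec hX0 hX1 hsumloc
    simpa [hge] using this
  -- product of the local inequalities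
  have hprod : ∏ p ∈ P, (Real.exp (‖a p‖ ^ 2 * (p : ℝ) ^ (-s)) * (1 - ((p : ℝ) ^ (-s)) ^ 2))
      ≤ D := by
    refine le_trans (Finset.prod_le_prod ?_ hloc) heul
    intro p hp
    obtain ⟨hpp, -⟩ := hP p hp
    have hp1 : (1 : ℝ) < p := by exact_mod_cast hpp.one_lt
    have hX1 : (p : ℝ) ^ (-s) < 1 := Real.rpow_lt_one_of_one_lt_of_neg hp1 (by linarith)
    have hX0 : (0 : ℝ) ≤ (p : ℝ) ^ (-s) := by positivity
    have : 0 ≤ 1 - ((p : ℝ) ^ (-s)) ^ 2 := by nlinarith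
    positivity
  -- lower bound for the factors `1 - X²`
  have hfac : ∀ p ∈ P, Real.exp (-(2 * ((p : ℝ) ^ 2)⁻¹)) ≤ 1 - ((p : ℝ) ^ (-s)) ^ 2 := by
    intro p hp
    obtain ⟨hpp, -⟩ := hP p hp
    have hp2 : (2 : ℝ) ≤ p := by exact_mod_cast hpp.two_le
    have hp0 : (0 : ℝ) < p := by linarith
    have hXle : ((p : ℝ) ^ (-s)) ^ 2 ≤ ((p : ℝ) ^ 2)⁻¹ := by
      rw [← Real.rpow_natCast, ← Real.rpow_mul hp0.le, ← Real.rpow_natCast, ← Real.rpow_neg hp0.le]
      apply Real.rpow_le_rpow_of_exponent_le (by linarith)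
      push_cast
      nlinarith
    have hinv : ((p : ℝ) ^ 2)⁻¹ ≤ 1 / 2 := by
      rw [inv_le_comm₀ (by positivity) (by norm_num)]
      nlinarith
    calc Real.exp (-(2 * ((p : ℝ) ^ 2)⁻¹)) ≤ 1 - ((p : ℝ) ^ 2)⁻¹ :=
          exp_neg_two_mul_le (by positivity) hinv
      _ ≤ 1 - ((p : ℝ) ^ (-s)) ^ 2 := by linarith
  have hexpprod : Real.exp (∑ p ∈ P, ‖a p‖ ^ 2 * (p : ℝ) ^ (-s) - 2)
      ≤ ∏ p ∈ P, (Real.exp (‖a p‖ ^ 2 * (p : ℝ) ^ (-s)) * (1 - ((p : ℝ) ^ (-s)) ^ 2)) := by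
    have h2 : ∑ p ∈ P, (‖a p‖ ^ 2 * (p : ℝ) ^ (-s) - 2 * ((p : ℝ) ^ 2)⁻¹)
        ≥ ∑ p ∈ P, ‖a p‖ ^ 2 * (p : ℝ) ^ (-s) - 2 := by
      rw [Finset.sum_sub_distrib, ← Finset.mul_sum]
      have := sum_inv_sq_le_one P (fun p hp => (hP p hp).1.two_le)
      linarith
    calc Real.exp (∑ p ∈ P, ‖a p‖ ^ 2 * (p : ℝ) ^ (-s) - 2)
        ≤ Real.exp (∑ p ∈ P, (‖a p‖ ^ 2 * (p : ℝ) ^ (-s) - 2 * ((p : ℝ) ^ 2)⁻¹)) :=
          Real.exp_le_exp.mpr h2
      _ = ∏ p ∈ P, Real.exp (‖a p‖ ^ 2 * (p : ℝ) ^ (-s) - 2 * ((p : ℝ) ^ 2)⁻¹) :=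
          Real.exp_sum _ _
      _ ≤ ∏ p ∈ P, (Real.exp (‖a p‖ ^ 2 * (p : ℝ) ^ (-s)) * (1 - ((p : ℝ) ^ (-s)) ^ 2)) := by
          apply Finset.prod_le_prod
          · intro p _; positivity
          · intro p hp
            rw [sub_eq_add_neg, Real.exp_add]
            exact mul_le_mul_of_nonneg_left (hfac p hp) (Real.exp_pos _).le
  have hfin : Real.exp (∑ p ∈ P, ‖a p‖ ^ 2 * (p : ℝ) ^ (-s) - 2) ≤ D := hexpprod.trans hprod
  have hDpos : 0 < D := by linarith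
  have := (Real.le_log_iff_exp_le hDpos).mpr hfin
  linarith

end Fermat.Agent.S48.H308
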