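import Fermat.Agent.S48.H308.RankinCheb

/-!
# S48 (Deligne–Serre), piece RANKIN, part 2: the local inequality

`local_ineq`: for `b 0 = 1`, `b 1 = a`, `b (e+2) = a * b (e+1) - ε * b e`, `‖ε‖ = 1`, `0 ≤ X < 1`
and `∑ ‖b e‖² X^e` summable:  `exp (‖a‖² X) * (1 - X²) ≤ ∑' e, ‖b e‖² X^e`.
-/

set_option autoImplicit false

namespace Fermat.Agent.S48.H308

open Finset

/-- `d_m = ∑_{e ≤ m, e ≡ m mod 2} ‖b_e‖²`, written over the antidiagonal. -/
noncomputable def dseq (b : ℕ → ℂ) (m : ℕ) : ℝ :=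
  ∑ kl ∈ antidiagonal m, ‖b kl.1‖ ^ 2 * (if Even kl.2 then 1 else 0)

lemma dseq_eq_range (b : ℕ → ℂ) (m : ℕ) :
    dseq b m = ∑ e ∈ range (m + 1), (if Even (m + e) then ‖b e‖ else 0) ^ 2 := by
  unfold dseq
  rw [Finset.Nat.sum_antidiagonal_eq_sum_range_succ_mk]
  apply Finset.sum_congr rfl
  intro e he
  simp only [mem_range] at he
  have hiff : Even (m - e) ↔ Even (m + e) := by
    have h1 : m + e = (m - e) + 2 * e := by omega
    rw [h1, Nat.even_add]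
    simp
  by_cases h : Even (m + e)
  · rw [if_pos h, if_pos (hiff.mpr h)]; ring
  · rw [if_neg h, if_neg (fun h' => h (hiff.mp h'))]; ring

/-- Cauchy–Schwarz step, case `ε = 1`. -/
lemma norm_pow_le_one {a : ℂ} {b : ℕ → ℂ} (hb0 : b 0 = 1) (hb1 : b 1 = a)
    (hrec : ∀ e, b (e + 2) = a * b (e + 1) - b e) (m : ℕ) :
    ‖a‖ ^ (2 * m) ≤ (m.factorial : ℝ) * dseq b m := by
  have hexp := pow_eq_sum_kap hb0 hb1 hrec m
  have h1 : ‖a‖ ^ m ≤ ∑ e ∈ range (m + 1), kap m e * (if Even (m + e) then ‖b e‖ else 0) := by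
    rw [← norm_pow, hexp]
    refine (norm_sum_le _ _).trans (le_of_eq ?_)
    apply Finset.sum_congr rfl
    intro e _
    rw [norm_mul, Complex.norm_real, Real.norm_of_nonneg (kap_nonneg m e)]
    by_cases h : Even (m + e)
    · rw [if_pos h]
    · rw [if_neg h, kap_eq_zero_of_odd h]; ring
  have h0 : (0 : ℝ) ≤ ‖a‖ ^ m := by positivity
  calc ‖a‖ ^ (2 * m) = (‖a‖ ^ m) ^ 2 := by rw [← pow_mul, mul_comm]
    _ ≤ (∑ e ∈ range (m + 1), kap m e * (if Even (m + e) then ‖b e‖ else 0)) ^ 2 :=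
        pow_le_pow_left₀ h0 h1 2
    _ ≤ (∑ e ∈ range (m + 1), kap m e ^ 2)
          * ∑ e ∈ range (m + 1), (if Even (m + e) then ‖b e‖ else 0) ^ 2 :=
        Finset.sum_mul_sq_le_sq_mul_sq _ _ _
    _ = kapSq m * dseq b m := by rw [dseq_eq_range]; rfl
    _ ≤ (m.factorial : ℝ) * dseq b m := by
        apply mul_le_mul_of_nonneg_right (kapSq_le_factorial m)
        unfold dseq
        apply Finset.sum_nonneg
        intro kl _
        split_ifs <;> positivity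

/-- Cauchy–Schwarz step, general `ε` of norm one. -/
lemma norm_pow_le {a ε : ℂ} (hε : ‖ε‖ = 1) {b : ℕ → ℂ} (hb0 : b 0 = 1) (hb1 : b 1 = a)
    (hrec : ∀ e, b (e + 2) = a * b (e + 1) - ε * b e) (m : ℕ) :
    ‖a‖ ^ (2 * m) ≤ (m.factorial : ℝ) * dseq b m := by
  obtain ⟨η, hη⟩ : ∃ η : ℂ, η ^ 2 = ε := IsAlgClosed.exists_pow_nat_eq ε (by norm_num)
  have hηn : ‖η‖ = 1 := by
    have h1 : ‖η‖ ^ 2 = 1 := by rw [← norm_pow, hη, hε]
    have h2 : (0 : ℝ) ≤ ‖η‖ := norm_nonneg _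
    nlinarith [sq_nonneg (‖η‖ - 1), sq_nonneg (‖η‖ + 1)]
  have hη0 : η ≠ 0 := by
    intro h; rw [h, norm_zero] at hηn; exact zero_ne_one hηn
  set b' : ℕ → ℂ := fun e => b e * (η⁻¹) ^ e with hb'
  have hnb : ∀ e, ‖b' e‖ = ‖b e‖ := by
    intro e
    simp only [hb', norm_mul, norm_pow, norm_inv, hηn, inv_one, one_pow, mul_one]
  have hrec' : ∀ e, b' (e + 2) = (a * η⁻¹) * b' (e + 1) - b' e := by
    intro e
    have hmi : η * η⁻¹ = 1 := mul_inv_cancel₀ hη0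
    simp only [hb']
    rw [hrec e, ← hη]
    linear_combination (-(b e) * (η⁻¹) ^ e * (η * η⁻¹ + 1)) * hmi
  have h := norm_pow_le_one (a := a * η⁻¹) (b := b') (by simp [hb', hb0]) (by simp [hb', hb1])
    hrec' m
  have hna : ‖a * η⁻¹‖ = ‖a‖ := by rw [norm_mul, norm_inv, hηn, inv_one, mul_one]
  have hd : dseq b' m = dseq b m := by
    unfold dseq
    apply Finset.sum_congr rfl
    intro kl _
    rw [hnb]
  rwa [hna, hd] at h

/-- The even-indexed geometric series. -/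
lemma hasSum_even_geom {X : ℝ} (hX0 : 0 ≤ X) (hX1 : X < 1) :
    HasSum (fun i : ℕ => (if Even i then (1 : ℝ) else 0) * X ^ i) (1 - X ^ 2)⁻¹ := by
  have hX2 : X ^ 2 < 1 := by nlinarith
  have hgeo : HasSum (fun j : ℕ => (X ^ 2) ^ j) (1 - X ^ 2)⁻¹ :=
    hasSum_geometric_of_lt_one (by positivity) hX2
  have hinj : Function.Injective (fun j : ℕ => 2 * j) := fun x y h => by
    simpa using h
  have hsupp : ∀ i, i ∉ Set.range (fun j : ℕ => 2 * j) →
      (if Even i then (1 : ℝ) else 0) * X ^ i = 0 := by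
    intro i hi
    rw [if_neg, zero_mul]
    intro hev
    apply hi
    obtain ⟨j, hj⟩ := hev
    exact ⟨j, by simp only; omega⟩
  rw [← hinj.hasSum_iff hsupp]
  convert hgeo using 1
  funext j
  simp [pow_mul]

/-- **Local inequality.** -/
theorem local_ineq {a ε : ℂ} (hε : ‖ε‖ = 1) {b : ℕ → ℂ} (hb0 : b 0 = 1) (hb1 : b 1 = a)
    (hrec : ∀ e, b (e + 2) = a * b (e + 1) - ε * b e) {X : ℝ} (hX0 : 0 ≤ X) (hX1 : X < 1)
    (hsum : Summable fun e => ‖b e‖ ^ 2 * X ^ e) :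
    Real.exp (‖a‖ ^ 2 * X) * (1 - X ^ 2) ≤ ∑' e, ‖b e‖ ^ 2 * X ^ e := by
  have hX2 : X ^ 2 < 1 := by nlinarith
  have h1X : 0 < 1 - X ^ 2 := by linarith
  set u : ℕ → ℝ := fun e => ‖b e‖ ^ 2 * X ^ e with hu
  set v : ℕ → ℝ := fun i => (if Even i then (1 : ℝ) else 0) * X ^ i with hv
  have hu0 : ∀ e, 0 ≤ u e := fun e => by simp only [hu]; positivity
  have hv0 : ∀ i, 0 ≤ v i := fun i => by
    simp only [hv]; split_ifs <;> positivity
  have hvs : HasSum v (1 - X ^ 2)⁻¹ := hasSum_even_geom hX0 hX1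
  have hun : Summable fun e => ‖u e‖ := by
    simpa [Real.norm_of_nonneg (hu0 _)] using hsum
  have hvn : Summable fun i => ‖v i‖ := by
    simpa [Real.norm_of_nonneg (hv0 _)] using hvs.summable
  have hprod := tsum_mul_tsum_eq_tsum_sum_antidiagonal_of_summable_norm hun hvn
  have hsummable : Summable fun n => ∑ kl ∈ antidiagonal n, u kl.1 * v kl.2 :=
    summable_sum_mul_antidiagonal_of_summable_norm' hun hsum hvn hvs.summable
  have hterm : ∀ n, ∑ kl ∈ antidiagonal n, u kl.1 * v kl.2 = dseq b n * X ^ n := by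
    intro n
    unfold dseq
    rw [Finset.sum_mul]
    apply Finset.sum_congr rfl
    intro kl hkl
    have hkl' : kl.1 + kl.2 = n := Finset.HasAntidiagonal.mem_antidiagonal.mp hkl
    simp only [hu, hv]
    rw [← hkl', pow_add]
    ring
  have hexp : HasSum (fun n : ℕ => (‖a‖ ^ 2 * X) ^ n / (n.factorial : ℝ))
      (Real.exp (‖a‖ ^ 2 * X)) := by
    rw [Real.exp_eq_exp_ℝ]
    exact NormedSpace.expSeries_div_hasSum_exp (‖a‖ ^ 2 * X)
  have hle : ∀ n : ℕ, (‖a‖ ^ 2 * X) ^ n / (n.factorial : ℝ)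
      ≤ ∑ kl ∈ antidiagonal n, u kl.1 * v kl.2 := by
    intro n
    rw [hterm, mul_pow, ← pow_mul]
    have hf : (0 : ℝ) < n.factorial := by exact_mod_cast Nat.factorial_pos n
    rw [div_le_iff₀ hf]
    have := norm_pow_le hε hb0 hb1 hrec n
    have hXn : 0 ≤ X ^ n := by positivity
    nlinarith [mul_le_mul_of_nonneg_right this hXn]
  have hfinal : Real.exp (‖a‖ ^ 2 * X) ≤ (∑' e, u e) * (1 - X ^ 2)⁻¹ := by
    rw [← hvs.tsum_eq, hprod]
    exact hasSum_le hle hexp hsummable.hasSum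
  calc Real.exp (‖a‖ ^ 2 * X) * (1 - X ^ 2)
      ≤ ((∑' e, u e) * (1 - X ^ 2)⁻¹) * (1 - X ^ 2) :=
        mul_le_mul_of_nonneg_right hfinal h1X.le
    _ = ∑' e, u e := by field_simp

end Fermat.Agent.S48.H308
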