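import Fermat.Agent.S48.Top.Spec
import Fermat.Agent.S48.H308.Rankin

/-!
# S48 (Deligne–Serre), input P4 RANKIN in the exact shape of the row interface

`rankin : Fermat.Agent.S48.Top.RankinStatement` (sharp constant `1`, no boundedness hypothesis).
-/

set_option autoImplicit false

namespace Fermat.Agent.S48.H308

/-- **P4 (RANKIN)**, exact `Top/Spec.lean` shape. -/
theorem rankin : Fermat.Agent.S48.Top.RankinStatement :=
  fun N _ ε f h => rankin_bound N ε f h.1 h.2

end Fermat.Agent.S48.H308
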