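import Fermat.Agent.S48.Top.Spec

/-!
# S48 (Deligne–Serre), glue piece VAL (D–S Prop. 5.5)

`values : Top.ValuesPiece`, i.e. `RankinStatement → EigenConjStatement → ValuesStatement`:
outside a set of primes of upper Dirichlet density `≤ η` the eigenvalues `a_p` take finitely
many values.

Proof: let `K` be the number field of `EigenConjStatement`, `d` the number of its complex
embeddings and `c = d / η`.  For each embedding `τ` the Rankin bound for the conjugate form gives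
`c · ∑_{p ∈ T, ‖τ a_p‖² ≥ c} p^{-s} ≤ log (1/(s-1)) + C_τ`; summing over `τ`, the primes `p` such that
some conjugate of `a_p` has `‖τ a_p‖² > c` have upper density `≤ d / c = η`; the other `a_p` are
algebraic integers of `K` all of whose conjugates are bounded by `√c`: a finite set.
-/

set_option autoImplicit false

namespace Fermat.Agent.S48.H308

open Fermat.Agent.S48.Top Fermat.Agent.Lib.Cheb.SpecQ

/-- From an `O(1)`-bound on `(1, 2]` to `HasUpperDensity` (which absorbs the constant). -/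
theorem hasUpperDensity_of_bound (X : Set ℕ) (d K : ℝ)
    (h : ∀ s : ℝ, 1 < s → s ≤ 2 → ∀ T : Finset ℕ, (∀ p ∈ T, p ∈ X) →
      ∑ p ∈ T, (p : ℝ) ^ (-s) ≤ d * Real.log (1 / (s - 1)) + K) :
    HasUpperDensity X d := by
  intro ε hε
  refine ⟨min 1 (Real.exp (-(|K| / ε))), lt_min one_pos (Real.exp_pos _), ?_⟩
  intro s hs hsδ T hT
  have hs2 : s ≤ 2 := by
    have := min_le_left 1 (Real.exp (-(|K| / ε)))
    linarith
  have hs0 : 0 < s - 1 := by linarith
  have hse : s - 1 < Real.exp (-(|K| / ε)) := by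
    have := min_le_right 1 (Real.exp (-(|K| / ε)))
    linarith
  have hlog : |K| / ε ≤ Real.log (1 / (s - 1)) := by
    rw [one_div, Real.log_inv]
    have h1 : Real.log (s - 1) < -(|K| / ε) := by
      rw [Real.log_lt_iff_lt_exp hs0]
      exact hse
    linarith
  have hK : K ≤ ε * Real.log (1 / (s - 1)) := by
    have h1 : |K| ≤ ε * Real.log (1 / (s - 1)) := by
      rw [div_le_iff₀ hε] at hlog
      linarith
    exact (le_abs_self K).trans h1
  calc ∑ p ∈ T, (p : ℝ) ^ (-s) ≤ d * Real.log (1 / (s - 1)) + K := h s hs hs2 T hT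
    _ ≤ d * Real.log (1 / (s - 1)) + ε * Real.log (1 / (s - 1)) := by linarith
    _ = (d + ε) * Real.log (1 / (s - 1)) := by ring

/-- **VAL**, exact `Top/Spec.lean` shape. -/
theorem values : ValuesPiece := by
  intro hR hE N _ ε f hf η hη
  classical
  obtain ⟨K, hKfd, hKa, hKτ⟩ := hE N ε f hf
  have : FiniteDimensional ℚ K := hKfd
  have : NumberField K := ⟨⟩
  choose ε' f' hf' hcoef using hKτ
  choose C hC using fun τ : K →ₐ[ℚ] ℂ => hR N (ε' τ) (f' τ) (hf' τ)
  set d : ℕ := Fintype.card (K →ₐ[ℚ] ℂ) with hd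
  have hdpos : 0 < d := Fintype.card_pos_iff.mpr ⟨K.val⟩
  have hdR : (0 : ℝ) < d := by exact_mod_cast hdpos
  set c : ℝ := d / η with hc
  have hcpos : 0 < c := div_pos hdR hη
  have hfin := NumberField.Embeddings.finite_of_norm_le K ℂ (Real.sqrt c)
  refine ⟨hfin.toFinset.image (fun x : K => (x : ℂ)), ?_⟩
  -- for every exceptional prime some conjugate is large
  have hex : ∀ p : ℕ, p.Prime → ¬ p ∣ N →
      ModularFormClass.qCoeff f p ∉ hfin.toFinset.image (fun x : K => (x : ℂ)) →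
      ∃ τ : K →ₐ[ℚ] ℂ, c ≤ ‖ModularFormClass.qCoeff (f' τ) p‖ ^ 2 := by
    intro p hp hpN hY
    obtain ⟨hmem, hint⟩ := hKa p hp hpN
    set x : K := ⟨ModularFormClass.qCoeff f p, hmem⟩ with hx
    have hxint : IsIntegral ℤ x := by
      have : IsIntegral ℤ (algebraMap K ℂ x) := hint
      exact (isIntegral_algebraMap_iff (algebraMap K ℂ).injective).mp this
    have hnot : ¬ (IsIntegral ℤ x ∧ ∀ φ : K →+* ℂ, ‖φ x‖ ≤ Real.sqrt c) := by
      intro hcon
      apply hY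
      rw [Finset.mem_image]
      exact ⟨x, hfin.mem_toFinset.mpr hcon, rfl⟩
    have hφ : ∃ φ : K →+* ℂ, Real.sqrt c < ‖φ x‖ := by
      by_contra hcon
      push Not at hcon
      exact hnot ⟨hxint, hcon⟩
    obtain ⟨φ, hφ⟩ := hφ
    refine ⟨φ.toRatAlgHom, ?_⟩
    rw [hcoef φ.toRatAlgHom p hp hpN x rfl]
    have h1 : Real.sqrt c ^ 2 = c := Real.sq_sqrt hcpos.le
    have h2 : Real.sqrt c ^ 2 ≤ ‖φ x‖ ^ 2 :=
      pow_le_pow_left₀ (Real.sqrt_nonneg c) hφ.le 2
    have h3 : (φ.toRatAlgHom : K → ℂ) x = φ x := rfl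
    rw [h3]
    linarith
  refine hasUpperDensity_of_bound _ η ((∑ τ : K →ₐ[ℚ] ℂ, C τ) / c) ?_
  intro s hs hs2 T hT
  have hL : 0 ≤ Real.log (1 / (s - 1)) := by
    apply Real.log_nonneg
    rw [le_div_iff₀ (by linarith)]
    linarith
  -- choose a large conjugate for every prime of `T`
  have hT' : ∀ p ∈ T, ∃ τ : K →ₐ[ℚ] ℂ, c ≤ ‖ModularFormClass.qCoeff (f' τ) p‖ ^ 2 :=
    fun p hp => hex p (hT p hp).1 (hT p hp).2.1 (hT p hp).2.2
  have hT'' : ∀ p : ℕ, ∃ τ : K →ₐ[ℚ] ℂ, p ∈ T → c ≤ ‖ModularFormClass.qCoeff (f' τ) p‖ ^ 2 := by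
    intro p
    by_cases hp : p ∈ T
    · obtain ⟨τ, hτ⟩ := hT' p hp
      exact ⟨τ, fun _ => hτ⟩
    · exact ⟨K.val, fun h => absurd h hp⟩
  choose τof hτof using hT''
  have hfib : ∑ p ∈ T, (p : ℝ) ^ (-s) =
      ∑ τ : K →ₐ[ℚ] ℂ, ∑ p ∈ T with τof p = τ, (p : ℝ) ^ (-s) :=
    (Finset.sum_fiberwise T τof fun p => (p : ℝ) ^ (-s)).symm
  have hτ : ∀ τ : K →ₐ[ℚ] ℂ, ∑ p ∈ T with τof p = τ, (p : ℝ) ^ (-s) ≤
      (Real.log (1 / (s - 1)) + C τ) / c := by
    intro τ
    rw [le_div_iff₀ hcpos, Finset.sum_mul]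
    refine le_trans ?_ (hC τ s hs hs2 (T.filter fun p => τof p = τ) ?_)
    · refine Finset.sum_le_sum fun p hp => ?_
      rw [Finset.mem_filter] at hp
      have h1 := hτof p hp.1
      rw [hp.2] at h1
      rw [mul_comm]
      exact mul_le_mul_of_nonneg_right h1 (Real.rpow_nonneg (Nat.cast_nonneg p) _)
    · intro p hp
      rw [Finset.mem_filter] at hp
      exact ⟨(hT p hp.1).1, (hT p hp.1).2.1⟩
  calc ∑ p ∈ T, (p : ℝ) ^ (-s)
      = ∑ τ : K →ₐ[ℚ] ℂ, ∑ p ∈ T with τof p = τ, (p : ℝ) ^ (-s) := hfib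
    _ ≤ ∑ τ : K →ₐ[ℚ] ℂ, (Real.log (1 / (s - 1)) + C τ) / c :=
        Finset.sum_le_sum fun τ _ => hτ τ
    _ = η * Real.log (1 / (s - 1)) + (∑ τ : K →ₐ[ℚ] ℂ, C τ) / c := by
        rw [← Finset.sum_div, Finset.sum_add_distrib, Finset.sum_const, Finset.card_univ,
          nsmul_eq_mul, add_div]
        congr 1
        rw [hc, ← hd]
        field_simp

end Fermat.Agent.S48.H308
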